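/-
S41 / [RED-CORE] steps (4)-(6) (helper70): from a root `x ∈ A` of the `p`-th division polynomial
of `W_ℚ̄` which is congruent to an integer `n` modulo the maximal ideal of a valuation subring `A`
of `ℚ̄` over a good odd prime `ℓ ≠ p`, where `(n, m)` is an integer point of `W` modulo `ℓ`,
to a nonzero point of `W_ℚ[p](ℚ̄)` fixed by every Frobenius element at `A`.

x-coordinate argument only: no reduction homomorphism, no counting.  Ingredients: the landed S05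
package (`E₁` = kernel of reduction, `sub_mem_E1_of_congr`, `F_E1_torsion_free`, `F_isU_of_good`,
`exists_ord`) and the landed S13 division-polynomial package (`zsmul_eq_zero_of_psiAt_eq_zero`).
-/
import Mathlib
import Fermat.Prelude.Def_EllipticCurve_FrobeniusTrace
import Fermat.Prelude.Def_FLTPrelim_Modularity
import Fermat.Agent.S05.OrdConstruct
import Fermat.Agent.S05.CongrFinal
import Fermat.Agent.S13.DivFinal3

set_option autoImplicit false

namespace Fermat.Agent.S41.Red70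

open WeierstrassCurve WeierstrassCurve.Affine Fermat.Agent.S05

/-! ### Integers in a valuation subring over `ℓ` -/

section ints

variable {K : Type*} [Field K] (A : ValuationSubring K)

theorem zcast_mem (z : ℤ) : (z : K) ∈ A := _root_.intCast_mem A z

variable {A}

theorem intCast_mem_nonunits_of_dvd {ℓ : ℕ} (hA : (ℓ : K) ∈ A.nonunits) {z : ℤ}
    (h : (ℓ : ℤ) ∣ z) : (z : K) ∈ A.nonunits := by
  obtain ⟨c, rfl⟩ := h
  rw [ValuationSubring.mem_nonunits_iff_exists_mem_maximalIdeal] at hA ⊢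
  obtain ⟨hℓA, hℓ⟩ := hA
  refine ⟨zcast_mem A _, ?_⟩
  have : (⟨(((ℓ : ℤ) * c : ℤ) : K), zcast_mem A _⟩ : A) = ⟨(ℓ : K), hℓA⟩ * ⟨(c : K), zcast_mem A c⟩ := by
    apply Subtype.ext
    push_cast
    rfl
  rw [this]
  exact Ideal.mul_mem_right _ _ hℓ

theorem intCast_not_mem_nonunits {ℓ : ℕ} (hℓ : ℓ.Prime) (hA : (ℓ : K) ∈ A.nonunits) {z : ℤ}
    (h : ¬ (ℓ : ℤ) ∣ z) : (z : K) ∉ A.nonunits := by
  intro hz
  have hcop : IsCoprime (ℓ : ℤ) z := by
    rw [Int.isCoprime_iff_gcd_eq_one]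
    have := (Nat.Prime.coprime_iff_not_dvd hℓ).2 (fun hd => h (by
      rw [Int.natCast_dvd]; exact hd))
    simpa [Int.gcd] using this
  obtain ⟨a, b, hab⟩ := hcop
  have h1 : (1 : K) ∈ A.nonunits := by
    have : (1 : K) = (a : K) * (ℓ : K) + (b : K) * (z : K) := by
      have := congrArg (fun t : ℤ => (t : K)) hab
      push_cast at this
      exact this.symm
    rw [this, ValuationSubring.mem_nonunits_iff_exists_mem_maximalIdeal]
    rw [ValuationSubring.mem_nonunits_iff_exists_mem_maximalIdeal] at hA hz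
    obtain ⟨hℓA, hℓm⟩ := hA
    obtain ⟨hzA, hzm⟩ := hz
    refine ⟨add_mem (mul_mem (zcast_mem A a) hℓA) (mul_mem (zcast_mem A b) hzA), ?_⟩
    have e : (⟨(a : K) * (ℓ : K) + (b : K) * (z : K),
        add_mem (mul_mem (zcast_mem A a) hℓA) (mul_mem (zcast_mem A b) hzA)⟩ : A)
        = ⟨(a : K), zcast_mem A a⟩ * ⟨(ℓ : K), hℓA⟩ + ⟨(b : K), zcast_mem A b⟩ * ⟨(z : K), hzA⟩ := rfl
    rw [e]
    exact add_mem (Ideal.mul_mem_left _ _ hℓm) (Ideal.mul_mem_left _ _ hzm)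
  rw [ValuationSubring.mem_nonunits_iff, map_one] at h1
  exact lt_irrefl _ h1

end ints

/-! ### Frobenius elements on integral elements -/

section frob

variable {K : Type*} [Field K] {k : Type*} [Field k] [Algebra k K]

theorem frob_spec (A : ValuationSubring K) (φ : K ≃ₐ[k] K) {q : ℕ} (hφ : A.IsFrobeniusAt φ q)
    {a : K} (ha : a ∈ A) : φ a ∈ A ∧ φ a - a ^ q ∈ A.nonunits := by
  obtain ⟨hσ, hx⟩ := hφ
  have hmem : φ a ∈ A := ((⟨φ, hσ⟩ : A.decompositionSubgroup k) • (⟨a, ha⟩ : A) : A).2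
  refine ⟨hmem, ?_⟩
  have h1 := hx (IsLocalRing.residue A ⟨a, ha⟩)
  rw [← IsLocalRing.ResidueField.residue_smul, ← map_pow, ← sub_eq_zero, ← map_sub,
    IsLocalRing.residue_eq_zero_iff] at h1
  rw [ValuationSubring.mem_nonunits_iff_exists_mem_maximalIdeal]
  exact ⟨A.sub_mem hmem (pow_mem ha q), h1⟩

/-- an integral element congruent to an integer is moved by a Frobenius at `ℓ` by a nonunit. -/
theorem frob_sub_mem_nonunits (A : ValuationSubring K) (φ : K ≃ₐ[k] K) {ℓ : ℕ} (hℓ : ℓ.Prime)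
    (hA : (ℓ : K) ∈ A.nonunits) (hφ : A.IsFrobeniusAt φ ℓ) {a : K} (ha : a ∈ A) {n : ℤ}
    (han : a - (n : K) ∈ A.nonunits) : φ a ∈ A ∧ φ a - a ∈ A.nonunits := by
  obtain ⟨hmem, h1⟩ := frob_spec A φ hφ ha
  refine ⟨hmem, ?_⟩
  -- a ^ ℓ ≡ n ^ ℓ ≡ n ≡ a
  have hnA : (n : K) ∈ A := zcast_mem A n
  have h2 : a ^ ℓ - (n : K) ^ ℓ ∈ A.nonunits := by
    obtain ⟨c, hc⟩ := sub_dvd_pow_sub_pow (⟨a, ha⟩ : A) ⟨(n : K), hnA⟩ ℓ
    have hc' : a ^ ℓ - (n : K) ^ ℓ = (a - (n : K)) * (c : K) := by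
      have := congrArg (fun t : A => (t : K)) hc
      simpa using this
    rw [hc', mul_comm]
    rw [ValuationSubring.mem_nonunits_iff_exists_mem_maximalIdeal] at han ⊢
    obtain ⟨h3, h4⟩ := han
    refine ⟨mul_mem c.2 h3, ?_⟩
    have : (⟨(c : K) * (a - (n : K)), mul_mem c.2 h3⟩ : A) = c * ⟨a - (n : K), h3⟩ := rfl
    rw [this]
    exact Ideal.mul_mem_left _ _ h4
  have h3 : (n : K) ^ ℓ - (n : K) ∈ A.nonunits := by
    have hd : (ℓ : ℤ) ∣ n ^ ℓ - n := by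
      have := Fact.mk hℓ
      rw [← ZMod.intCast_zmod_eq_zero_iff_dvd]
      push_cast
      rw [ZMod.pow_card, sub_self]
    have := intCast_mem_nonunits_of_dvd (A := A) hA hd
    push_cast at this
    exact this
  have hsum : φ a - a = (φ a - a ^ ℓ) + (a ^ ℓ - (n : K) ^ ℓ) + ((n : K) ^ ℓ - (n : K))
      - (a - (n : K)) := by ring
  rw [hsum]
  have hadd : ∀ {u v : K}, u ∈ A.nonunits → v ∈ A.nonunits → u + v ∈ A.nonunits := by
    intro u v hu hv
    rw [ValuationSubring.mem_nonunits_iff_exists_mem_maximalIdeal] at hu hv ⊢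
    obtain ⟨hu', hu⟩ := hu
    obtain ⟨hv', hv⟩ := hv
    exact ⟨add_mem hu' hv', (IsLocalRing.maximalIdeal A).add_mem hu hv⟩
  have hneg : ∀ {u : K}, u ∈ A.nonunits → -u ∈ A.nonunits := by
    intro u hu
    rw [ValuationSubring.mem_nonunits_iff_exists_mem_maximalIdeal] at hu ⊢
    obtain ⟨hu', hu⟩ := hu
    exact ⟨neg_mem hu', (IsLocalRing.maximalIdeal A).neg_mem hu⟩
  rw [sub_eq_add_neg]
  exact hadd (hadd (hadd h1 h2) h3) (hneg han)

end frob

/-! ### The main step -/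

section main

open Polynomial

local notation "Qb" => AlgebraicClosure ℚ

theorem baseChange_map_eq (W : WeierstrassCurve ℤ) :
    (W.map (Int.castRingHom ℚ)).baseChange Qb = W.map (Int.castRingHom Qb) := by
  rw [WeierstrassCurve.baseChange, WeierstrassCurve.map_map]
  congr 1

/-- in a valuation subring the nonunits form a prime ideal. -/
theorem mem_nonunits_of_mul {K : Type*} [Field K] {A : ValuationSubring K} {a b : K}
    (ha : a ∈ A) (hb : b ∈ A) (hab : a * b ∈ A.nonunits) : a ∈ A.nonunits ∨ b ∈ A.nonunits := by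
  by_contra hcon
  rw [not_or] at hcon
  rw [ValuationSubring.mem_nonunits_iff] at hab hcon
  rw [ValuationSubring.mem_nonunits_iff] at hcon
  have h1 : A.valuation a = 1 :=
    le_antisymm ((A.valuation_le_one_iff a).2 ha) (not_lt.1 hcon.1)
  have h2 : A.valuation b = 1 :=
    le_antisymm ((A.valuation_le_one_iff b).2 hb) (not_lt.1 hcon.2)
  rw [map_mul, h1, h2, one_mul] at hab
  exact lt_irrefl _ hab

theorem add_mem_nonunits {K : Type*} [Field K] {A : ValuationSubring K} {u v : K}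
    (hu : u ∈ A.nonunits) (hv : v ∈ A.nonunits) : u + v ∈ A.nonunits := by
  rw [ValuationSubring.mem_nonunits_iff_exists_mem_maximalIdeal] at hu hv ⊢
  obtain ⟨hu', hu⟩ := hu
  obtain ⟨hv', hv⟩ := hv
  exact ⟨add_mem hu' hv', (IsLocalRing.maximalIdeal A).add_mem hu hv⟩

theorem neg_mem_nonunits {K : Type*} [Field K] {A : ValuationSubring K} {u : K}
    (hu : u ∈ A.nonunits) : -u ∈ A.nonunits := by
  rw [ValuationSubring.mem_nonunits_iff_exists_mem_maximalIdeal] at hu ⊢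
  obtain ⟨hu', hu⟩ := hu
  exact ⟨neg_mem hu', (IsLocalRing.maximalIdeal A).neg_mem hu⟩

theorem mul_mem_nonunits {K : Type*} [Field K] {A : ValuationSubring K} {a u : K}
    (ha : a ∈ A) (hu : u ∈ A.nonunits) : a * u ∈ A.nonunits := by
  rw [ValuationSubring.mem_nonunits_iff_exists_mem_maximalIdeal] at hu ⊢
  obtain ⟨hu', hu⟩ := hu
  exact ⟨mul_mem ha hu', (IsLocalRing.maximalIdeal A).mul_mem_left ⟨a, ha⟩ hu⟩

end main

section general

open WeierstrassCurve.Affine.Point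

variable {k K : Type*} [Field k] [Field K] [DecidableEq K] [Algebra k K]
  {A : ValuationSubring K} {ord : K → ℚ}

/-- good reduction, `p` odd and a unit: a `p`-torsion point with integral coordinates which are
moved by `φ` only by nonunits is fixed by `φ`. -/
theorem smul_eq_of_congr (W : Affine k) (hord : IsOrd A ord) (h2 : IsU ord (2 : K))
    (hW : IsIntegralW (W⁄K) A) (hΔ : IsU ord (W⁄K).Δ)
    {p : ℕ} (hp : p.Prime) (hp2 : p ≠ 2) (hpu : IsU ord (p : K)) (φ : K ≃ₐ[k] K)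
    {x y : K} (h : (W⁄K).Nonsingular x y) (hxA : x ∈ A)
    (hφx : φ x ∈ A ∧ φ x - x ∈ A.nonunits) (hφy : φ y ∈ A ∧ φ y - y ∈ A.nonunits)
    (htors : (p : ℤ) • (Point.some x y h : (W⁄K).Point) = 0) :
    φ • (Point.some x y h : (W⁄K).Point) = Point.some x y h := by
  have hyA : y ∈ A := F_y_mem (W⁄K) hW h.1 hxA
  have h' : (W⁄K).Nonsingular (φ x) (φ y) :=
    (W.baseChange_nonsingular (f := φ.toAlgHom) φ.injective x y).mpr h
  have hsmul : φ • (Point.some x y h : (W⁄K).Point) = Point.some (φ x) (φ y) h' := rfl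
  have hns : IsNsInt (W⁄K) A ord (φ x) (φ y) :=
    ⟨hφx.1, hφy.1, F_isU_of_good (W⁄K) hord h2 hW hΔ h'.1 hφx.1⟩
  have hE1 : Point.some (φ x) (φ y) h' - Point.some x y h ∈ E1 (W⁄K) ord :=
    sub_mem_E1_of_congr (W⁄K) hord h2 hW h' h hns hxA hyA hφx.2 hφy.2
  have hpD : (p : ℤ) • (Point.some (φ x) (φ y) h' - Point.some x y h : (W⁄K).Point) = 0 := by
    rw [smul_sub, htors, sub_zero, ← hsmul, ← algEquiv_smul_zsmul, htors, smul_zero]
  have h0 := F_E1_torsion_free (W⁄K) hord h2 hW hp hp2 hpu hE1 hpD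
  rw [hsmul]
  exact sub_eq_zero.mp h0

end general

section mainthm

open Polynomial Fermat.Agent.S13

local notation "Qb" => AlgebraicClosure ℚ

/-- **[RED-CORE] (4)-(6).** -/
theorem torsLift_of_rootLift (W : WeierstrassCurve ℤ) {p ℓ : ℕ} (hp : p.Prime) (hp2 : p ≠ 2)
    (hℓ : ℓ.Prime) (hℓ2 : ℓ ≠ 2) (hℓp : ℓ ≠ p) (hgood : W.IsGoodPrimeFor ℓ)
    (A : ValuationSubring Qb) (hA : A.LiesOverPrime ℓ) (φ : Qb ≃ₐ[ℚ] Qb)
    (hφ : A.IsFrobeniusAt φ ℓ)
    (hroot : ∃ (n m : ℤ) (x : Qb), x ∈ A ∧ x - (n : Qb) ∈ A.nonunits ∧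
      (((W.map (Int.castRingHom ℚ)).baseChange Qb).preΨ' p).eval x = 0 ∧
      (ℓ : ℤ) ∣ m ^ 2 + W.a₁ * n * m + W.a₃ * m - (n ^ 3 + W.a₂ * n ^ 2 + W.a₄ * n + W.a₆)) :
    ∃ P : Submodule.torsionBy ℤ ((W.map (Int.castRingHom ℚ))⁄Qb).Point p, P ≠ 0 ∧ φ • P = P := by
  obtain ⟨n, m, x, hxA, hxn, hx0, hnm⟩ := hroot
  obtain ⟨ord, hord, -⟩ := exists_ord A hℓ hA
  have hAℓ : (ℓ : Qb) ∈ A.nonunits := hA
  -- the curve over `Qb`
  have hE : ((W.map (Int.castRingHom ℚ))⁄Qb) = (W.map (Int.castRingHom Qb)).toAffine :=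
    baseChange_map_eq W
  have ha₁ : ((W.map (Int.castRingHom ℚ))⁄Qb).a₁ = ((W.a₁ : ℤ) : Qb) := by rw [hE]; simp
  have ha₂ : ((W.map (Int.castRingHom ℚ))⁄Qb).a₂ = ((W.a₂ : ℤ) : Qb) := by rw [hE]; simp
  have ha₃ : ((W.map (Int.castRingHom ℚ))⁄Qb).a₃ = ((W.a₃ : ℤ) : Qb) := by rw [hE]; simp
  have ha₄ : ((W.map (Int.castRingHom ℚ))⁄Qb).a₄ = ((W.a₄ : ℤ) : Qb) := by rw [hE]; simp
  have ha₆ : ((W.map (Int.castRingHom ℚ))⁄Qb).a₆ = ((W.a₆ : ℤ) : Qb) := by rw [hE]; simp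
  have hΔeq : ((W.map (Int.castRingHom ℚ))⁄Qb).Δ = ((W.Δ : ℤ) : Qb) := by rw [hE]; simp
  -- units
  have hW : IsIntegralW ((W.map (Int.castRingHom ℚ))⁄Qb) A := by
    refine ⟨?_, ?_, ?_, ?_, ?_⟩
    · rw [ha₁]; exact zcast_mem A _
    · rw [ha₂]; exact zcast_mem A _
    · rw [ha₃]; exact zcast_mem A _
    · rw [ha₄]; exact zcast_mem A _
    · rw [ha₆]; exact zcast_mem A _
  have hU : ∀ z : ℤ, ¬ (ℓ : ℤ) ∣ z → IsU ord ((z : ℤ) : Qb) := fun z hz =>
    hord.isU_iff_mem_not_nonunits.2 ⟨zcast_mem A z, intCast_not_mem_nonunits hℓ hAℓ hz⟩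
  have h2 : IsU ord (2 : Qb) := by
    have := hU 2 (by
      intro hd
      have h2' : ℓ ∣ 2 := by exact_mod_cast hd
      exact hℓ2 ((Nat.prime_dvd_prime_iff_eq hℓ Nat.prime_two).1 h2'))
    simpa using this
  have hpu : IsU ord (p : Qb) := by
    have := hU (p : ℤ) (by
      intro hd
      have hd' : ℓ ∣ p := by exact_mod_cast hd
      exact hℓp ((Nat.prime_dvd_prime_iff_eq hℓ hp).1 hd'))
    simpa using this
  have hΔ : IsU ord ((W.map (Int.castRingHom ℚ))⁄Qb).Δ := by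
    rw [hΔeq]; exact hU _ hgood
  have hΔ0 : ((W.map (Int.castRingHom ℚ))⁄Qb).Δ ≠ 0 := hΔ.1
  -- the `y`-coordinate
  obtain ⟨y, hyroot⟩ := IsAlgClosed.exists_root (TC29.yPoly ((W.map (Int.castRingHom ℚ))⁄Qb) x)
    (by
      intro hdeg
      have h1 := TC29.yPoly_natDegree ((W.map (Int.castRingHom ℚ))⁄Qb) x
      rw [Polynomial.natDegree_eq_of_degree_eq_some (n := 0) (by simpa using hdeg)] at h1
      omega)
  have hy : ((W.map (Int.castRingHom ℚ))⁄Qb).Equation x y :=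
    (TC29.yPoly_isRoot_iff _ x y).1 hyroot
  have hns : ((W.map (Int.castRingHom ℚ))⁄Qb).Nonsingular x y :=
    (equation_iff_nonsingular_of_Δ_ne_zero hΔ0).1 hy
  have hyA : y ∈ A := F_y_mem _ hW hy hxA
  -- `y` is congruent to an integer
  have hyint : ∃ m₀ : ℤ, y - (m₀ : Qb) ∈ A.nonunits := by
    have hy' := hy
    rw [Affine.equation_iff, ha₁, ha₂, ha₃, ha₄, ha₆] at hy'
    set t : ℤ := -m - W.a₁ * n - W.a₃ with ht
    set c : ℤ := m ^ 2 + W.a₁ * n * m + W.a₃ * m - (n ^ 3 + W.a₂ * n ^ 2 + W.a₄ * n + W.a₆) with hc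
    have key : (y - (m : Qb)) * (y - (t : Qb)) =
        (x - (n : Qb)) * (x ^ 2 + x * (n : Qb) + (n : Qb) ^ 2 + ((W.a₂ : ℤ) : Qb) * (x + (n : Qb))
          + ((W.a₄ : ℤ) : Qb) - ((W.a₁ : ℤ) : Qb) * y) + -((c : ℤ) : Qb) := by
      rw [ht, hc]
      push_cast
      linear_combination hy'
    have hmem : (y - (m : Qb)) * (y - (t : Qb)) ∈ A.nonunits := by
      rw [key]
      refine add_mem_nonunits ?_ (neg_mem_nonunits (intCast_mem_nonunits_of_dvd hAℓ hnm))
      rw [mul_comm]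
      refine mul_mem_nonunits ?_ hxn
      have hnA := zcast_mem A n
      exact sub_mem (add_mem (add_mem (add_mem (add_mem (pow_mem hxA 2) (mul_mem hxA hnA))
        (pow_mem hnA 2)) (mul_mem (zcast_mem A _) (add_mem hxA hnA))) (zcast_mem A _))
        (mul_mem (zcast_mem A _) hyA)
    rcases mem_nonunits_of_mul (sub_mem hyA (zcast_mem A m)) (sub_mem hyA (zcast_mem A t)) hmem
      with h | h
    · exact ⟨m, h⟩
    · exact ⟨t, h⟩
  obtain ⟨m₀, hym⟩ := hyint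
  -- torsion
  have htors : (p : ℤ) • (Point.some x y hns : ((W.map (Int.castRingHom ℚ))⁄Qb).Point) = 0 := by
    classical
    refine DivZeros3.zsmul_eq_zero_of_psiAt_eq_zero _ (DivFinal3.forwardAll _)
      (DivFinal3.forwardAll _) hΔ0 hns p hp.pos ?_
    rw [DivGeneric3.psiAt, DivPsi.evalEval_psi_eq_prePsi _ hy]
    have hodd : ¬ Even (p : ℤ) := by
      rw [Int.even_coe_nat]
      exact fun he => hp2 ((Nat.Prime.even_iff hp).mp he)
    rw [if_neg hodd, mul_one, WeierstrassCurve.preΨ_ofNat]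
    exact hx0
  -- Frobenius
  have hφx := frob_sub_mem_nonunits A φ hℓ hAℓ hφ hxA hxn
  have hφy := frob_sub_mem_nonunits A φ hℓ hAℓ hφ hyA hym
  have hfix := smul_eq_of_congr (W.map (Int.castRingHom ℚ)) hord h2 hW hΔ hp hp2 hpu φ hns hxA
    hφx hφy htors
  refine ⟨⟨Point.some x y hns, ?_⟩, ?_, ?_⟩
  · rw [Submodule.mem_torsionBy_iff]
    exact htors
  · intro h0
    have := congrArg Subtype.val h0
    exact Point.some_ne_zero hns this
  · exact Subtype.ext hfix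

end mainthm

end Fermat.Agent.S41.Red70
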