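/-
S41 / [RED] wiring (helper70): helper44's plug `NonEis44.TorsLift` with exceptional set `{2}`,
for the integral model `W_ℚ` and (through helper42's [VC] transfer) for any `E` with
`W.IsIntegralModelOf E`.  From helper89's `Red89.exists_root_lift'` (steps (1)-(3)) and
`Red70.torsLift_of_rootLift` (steps (4)-(6)).  No sorry.
-/
import Fermat.Agent.S41.Red70.TorsLift
import Fermat.Agent.S41.Red89.RootLift
import Fermat.Agent.S41.NonEis44.Assembly
import Fermat.Agent.S41.Red42.Transfer

set_option autoImplicit false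

namespace Fermat.Agent.S41.Red70

open WeierstrassCurve

/-- **[TORS-LIFT]** for the integral model: helper44's plug at `E := W_ℚ`, `B₀ = {2}`. -/
theorem torsLift_model (W : WeierstrassCurve ℤ) {p : ℕ} (hp : p.Prime) (hp2 : p ≠ 2) :
    NonEis44.TorsLift (W.map (Int.castRingHom ℚ)) W p {2} := by
  intro ℓ hℓ hB hg hℓp hd A hA φ hφ
  have hℓ2 : ℓ ≠ 2 := by simpa using hB
  exact torsLift_of_rootLift W hp hp2 hℓ hℓ2 hℓp hg A hA φ hφ
    (Red89.exists_root_lift' W hp hp2 hℓ hℓ2 hℓp hd A hA)

/-- **[TORS-LIFT]** for any curve with integral model `W`: helper44's plug, `B₀ = {2}`. -/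
theorem torsLift {E : WeierstrassCurve ℚ} {W : WeierstrassCurve ℤ} (hW : W.IsIntegralModelOf E)
    {p : ℕ} (hp : p.Prime) (hp2 : p ≠ 2) : NonEis44.TorsLift E W p {2} :=
  Red42.torsLift_of_model hW (torsLift_model W hp hp2)

end Fermat.Agent.S41.Red70
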